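/-
S18 / wave 4 (helper11): generic field theory behind the leaf `degree_data_of_rel`
(B4d/B5d of the bridge `exists_setup`).  Mathlib only, no modular input.

* `finrank_adjoin_of_rel`   : `x` transcendental over `K`, `j * x = Nm(x)` with `Nm ∈ ℤ[X]` monic of
  degree `n > 1` and `Nm(0) ≠ 0` in `K`  ⟹  `[K(x) : K(j)] = n` (Mathlib's degree formula for
  `K(X) / K(f)` transported along `K(X) ≃ K(x)`).
* `relfinrank_adjoin_le_of_rel` : over any field, `[k(x) : k(j)] ≤ n`.
* `degree_data_generic`     : the degree / separability transfer from the base function `j` to the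
  base function `x`.
-/
import Mathlib

set_option autoImplicit false

open IntermediateField Polynomial

noncomputable section

namespace Fermat.Agent.S18.H11

section Rel

variable {K F : Type*} [Field K] [Field F] [Algebra K F]

/-- `eval₂` of an integer polynomial, as `aeval` of its image over `K`. -/
theorem eval₂_intCast_eq_aeval (x : F) (Nm : Polynomial ℤ) :
    Polynomial.eval₂ (Int.castRingHom F) x Nm =
      Polynomial.aeval x (Nm.map (Int.castRingHom K)) := by
  rw [Polynomial.aeval_def, Polynomial.eval₂_map]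
  congr 1
  exact RingHom.ext_int _ _

theorem mem_adjoin_of_rel (x j : F) (hx0 : x ≠ 0) (Nm : Polynomial ℤ)
    (hrel : j * x = Polynomial.eval₂ (Int.castRingHom F) x Nm) : j ∈ K⟮x⟯ := by
  have hj : j = Polynomial.aeval x (Nm.map (Int.castRingHom K)) / x := by
    rw [eq_div_iff hx0, hrel, eval₂_intCast_eq_aeval (K := K)]
  rw [hj]
  refine div_mem ?_ (mem_adjoin_simple_self K x)
  exact (Polynomial.aeval_mem_adjoin_singleton K x : _ ∈ Algebra.adjoin K {x}) |>
    (IntermediateField.algebra_adjoin_le_adjoin K {x} ·)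

theorem adjoin_le_adjoin_of_rel (x j : F) (hx0 : x ≠ 0) (Nm : Polynomial ℤ)
    (hrel : j * x = Polynomial.eval₂ (Int.castRingHom F) x Nm) : K⟮j⟯ ≤ K⟮x⟯ :=
  adjoin_simple_le_iff.mpr (mem_adjoin_of_rel x j hx0 Nm hrel)

/-- **Degree of `K(x) / K(j)`** for `j = Nm(x) / x`, `x` transcendental: it is `deg Nm`. -/
theorem relfinrank_adjoin_of_rel (x j : F) (hx : Transcendental K x) (Nm : Polynomial ℤ)
    (hNm : Nm.Monic) (hNm1 : 1 < Nm.natDegree) (hNm0 : ((Nm.eval 0 : ℤ) : K) ≠ 0)
    (hrel : j * x = Polynomial.eval₂ (Int.castRingHom F) x Nm) :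
    IntermediateField.relfinrank K⟮j⟯ K⟮x⟯ = Nm.natDegree := by
  classical
  have hinj : Function.Injective (Polynomial.aeval x : K[X] →ₐ[K] F) :=
    transcendental_iff_injective.mp hx
  have hx0 : x ≠ 0 := by
    rintro rfl
    exact hx isAlgebraic_zero
  set p : K[X] := Nm.map (Int.castRingHom K) with hp
  have hpdeg : p.natDegree = Nm.natDegree := hNm.natDegree_map _
  have hp0 : p.coeff 0 ≠ 0 := by
    rw [hp, Polynomial.coeff_map, Polynomial.coeff_zero_eq_eval_zero]
    simpa using hNm0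
  have hcop : IsCoprime p X := by
    have h : IsCoprime (X : K[X]) p :=
      (Polynomial.irreducible_X.coprime_iff_not_dvd).mpr (fun h => hp0 (Polynomial.X_dvd_iff.mp h))
    exact h.symm
  have hg : gcd p (X : K[X]) = 1 := by
    have hu : IsUnit (gcd p (X : K[X])) := (gcd_isUnit_iff p X).mpr hcop
    rw [← normalize_gcd, normalize_eq_one]
    exact hu
  set φ : RatFunc K →ₐ[K] F := RatFunc.liftAlgHom (Polynomial.aeval x)
    (nonZeroDivisors_le_comap_nonZeroDivisors_of_injective _ hinj) with hφ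
  set f : RatFunc K := algebraMap K[X] (RatFunc K) p / algebraMap K[X] (RatFunc K) X with hf
  have hφf : φ f = j := by
    rw [hf, hφ, RatFunc.liftAlgHom_apply_div, Polynomial.aeval_X, div_eq_iff hx0, hrel,
      eval₂_intCast_eq_aeval (K := K)]
  have hφX : φ RatFunc.X = x := by
    have h := RatFunc.liftAlgHom_apply_div (Polynomial.aeval x)
      (nonZeroDivisors_le_comap_nonZeroDivisors_of_injective _ hinj) (X : K[X]) 1
    rw [map_one, div_one, map_one, div_one, Polynomial.aeval_X, RatFunc.algebraMap_X] at h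
    exact h
  have h1 : K⟮j⟯ = (K⟮f⟯).map φ := by
    rw [adjoin_map, Set.image_singleton, hφf]
  have h2 : K⟮x⟯ = (⊤ : IntermediateField K (RatFunc K)).map φ := by
    rw [← RatFunc.adjoin_X, adjoin_map, Set.image_singleton, hφX]
  rw [h1, h2, relfinrank_map_map, relfinrank_top_right, RatFunc.finrank_eq_max_natDegree]
  have hnum : f.num = p := by
    rw [hf, RatFunc.num_div, hg]
    simp
  have hden : f.denom = X := by
    rw [hf, RatFunc.denom_div p Polynomial.X_ne_zero, hg]
    simp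
  rw [hnum, hden, hpdeg, Polynomial.natDegree_X]
  exact max_eq_left hNm1.le

/-- Tower law on the characteristic-zero side: `n * [F : K(x)] = [F : K(j)]`. -/
theorem natDegree_mul_finrank_of_rel (x j : F) (hx : Transcendental K x) (Nm : Polynomial ℤ)
    (hNm : Nm.Monic) (hNm1 : 1 < Nm.natDegree) (hNm0 : ((Nm.eval 0 : ℤ) : K) ≠ 0)
    (hrel : j * x = Polynomial.eval₂ (Int.castRingHom F) x Nm) :
    Nm.natDegree * Module.finrank K⟮x⟯ F = Module.finrank K⟮j⟯ F := by
  have hx0 : x ≠ 0 := by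
    rintro rfl
    exact hx isAlgebraic_zero
  rw [← relfinrank_adjoin_of_rel x j hx Nm hNm hNm1 hNm0 hrel]
  exact relfinrank_mul_finrank_top (adjoin_le_adjoin_of_rel x j hx0 Nm hrel)

/-- Finiteness passes from `K(j)` to `K(x)`. -/
theorem finiteDimensional_adjoin_of_rel (x j : F) (hx0 : x ≠ 0) (Nm : Polynomial ℤ)
    (hrel : j * x = Polynomial.eval₂ (Int.castRingHom F) x Nm)
    (hfin : FiniteDimensional K⟮j⟯ F) : FiniteDimensional K⟮x⟯ F := by
  have hle : K⟮j⟯ ≤ K⟮x⟯ := adjoin_le_adjoin_of_rel x j hx0 Nm hrel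
  let _ : Algebra K⟮j⟯ K⟮x⟯ := (IntermediateField.inclusion hle).toRingHom.toAlgebra
  have : IsScalarTower K⟮j⟯ K⟮x⟯ F := IsScalarTower.of_algebraMap_eq fun _ => rfl
  exact Module.Finite.of_restrictScalars_finite K⟮j⟯ K⟮x⟯ F

/-- Degree bound valid over any field: `[K(x) : K(j)] ≤ deg Nm`. -/
theorem relfinrank_adjoin_le_of_rel (x j : F) (hx0 : x ≠ 0) (Nm : Polynomial ℤ)
    (hNm : Nm.Monic) (hNm1 : 1 < Nm.natDegree)
    (hrel : j * x = Polynomial.eval₂ (Int.castRingHom F) x Nm) :
    IntermediateField.relfinrank K⟮j⟯ K⟮x⟯ ≤ Nm.natDegree := by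
  have hle : K⟮j⟯ ≤ K⟮x⟯ := adjoin_le_adjoin_of_rel x j hx0 Nm hrel
  rw [relfinrank_eq_finrank_of_le hle, extendScalars_adjoin hle]
  -- the polynomial `Nm(X) - j X` over `K(j)`
  set E : IntermediateField K F := K⟮j⟯ with hE
  set q : E[X] := Nm.map (Int.castRingHom E) -
    Polynomial.C (⟨j, mem_adjoin_simple_self K j⟩ : E) * X with hq
  have hNmE : (Nm.map (Int.castRingHom E)).Monic := hNm.map _
  have hNmEdeg : (Nm.map (Int.castRingHom E)).natDegree = Nm.natDegree := hNm.natDegree_map _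
  have hlt : (Polynomial.C (⟨j, mem_adjoin_simple_self K j⟩ : E) * X).degree <
      (Nm.map (Int.castRingHom E)).degree := by
    rw [Polynomial.degree_eq_natDegree hNmE.ne_zero, hNmEdeg]
    refine lt_of_le_of_lt (Polynomial.degree_C_mul_X_le _) ?_
    exact_mod_cast hNm1
  have hqmonic : q.Monic := hNmE.sub_of_left hlt
  have hqdeg : q.natDegree = Nm.natDegree := by
    rw [hq, Polynomial.natDegree_sub_eq_left_of_natDegree_lt, hNmEdeg]
    rw [hNmEdeg]
    exact lt_of_le_of_lt ((Polynomial.natDegree_C_mul_le _ _).trans Polynomial.natDegree_X_le) hNm1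
  have hroot : Polynomial.aeval x q = 0 := by
    rw [hq, map_sub, map_mul, Polynomial.aeval_C, Polynomial.aeval_X, Polynomial.aeval_def,
      Polynomial.eval₂_map]
    have h1 : (algebraMap E F).comp (Int.castRingHom E) = Int.castRingHom F :=
      RingHom.ext_int _ _
    rw [h1, ← hrel]
    exact sub_self _
  have hint : IsIntegral E x := ⟨q, hqmonic, hroot⟩
  rw [IntermediateField.adjoin.finrank hint, ← hqdeg]
  exact Polynomial.natDegree_le_of_dvd (minpoly.dvd E x hroot) hqmonic.ne_zero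

end Rel

section Generic

variable {K F : Type*} [Field K] [Field F] [Algebra K F]
variable {k L : Type*} [Field k] [Field L] [Algebra k L]

/-- **Generic form of `degree_data_of_rel`.**  `x` is a base function with `j * x = Nm(x)` on the
characteristic-zero side, `xb`, `jb` are the corresponding functions on the residue side.  Degree
and separability data for the base function `j` give the same for the base function `x`. -/
theorem degree_data_generic (Fk : IntermediateField k L) (x j : F) (xb jb : L) (ψ : ℕ)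
    (hxtr : Transcendental K x) (hxb : xb ∈ Fk) (hxb0 : xb ≠ 0)
    (Nm : Polynomial ℤ) (hNm : Nm.Monic) (hNm1 : 1 < Nm.natDegree)
    (hNm0 : ((Nm.eval 0 : ℤ) : K) ≠ 0)
    (hrel : j * x = Polynomial.eval₂ (Int.castRingHom F) x Nm)
    (hrelk : jb * xb = Polynomial.eval₂ (Int.castRingHom L) xb Nm)
    (hfin : FiniteDimensional K⟮j⟯ F)
    (hdeg : Module.finrank K⟮j⟯ F ≤ ψ)
    (hpsi : ψ ≤ IntermediateField.relfinrank k⟮jb⟯ Fk)
    (hsep : ∀ y ∈ Fk, IsSeparable k⟮jb⟯ y) :
    FiniteDimensional K⟮x⟯ F ∧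
    Module.finrank K⟮x⟯ F ≤ IntermediateField.relfinrank k⟮xb⟯ Fk ∧
    ∀ y ∈ Fk, IsSeparable k⟮xb⟯ y := by
  have hx0 : x ≠ 0 := by
    rintro rfl
    exact hxtr isAlgebraic_zero
  have hn0 : 0 < Nm.natDegree := lt_trans Nat.zero_lt_one hNm1
  have hle : k⟮jb⟯ ≤ k⟮xb⟯ := adjoin_le_adjoin_of_rel xb jb hxb0 Nm hrelk
  have hle' : k⟮xb⟯ ≤ Fk := adjoin_simple_le_iff.mpr hxb
  refine ⟨finiteDimensional_adjoin_of_rel x j hx0 Nm hrel hfin, ?_, ?_⟩
  · -- degrees
    have h1 : Nm.natDegree * Module.finrank K⟮x⟯ F = Module.finrank K⟮j⟯ F :=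
      natDegree_mul_finrank_of_rel x j hxtr Nm hNm hNm1 hNm0 hrel
    have h2 : IntermediateField.relfinrank k⟮jb⟯ k⟮xb⟯ * IntermediateField.relfinrank k⟮xb⟯ Fk =
        IntermediateField.relfinrank k⟮jb⟯ Fk := relfinrank_mul_relfinrank hle hle'
    have h3 : IntermediateField.relfinrank k⟮jb⟯ k⟮xb⟯ ≤ Nm.natDegree :=
      relfinrank_adjoin_le_of_rel xb jb hxb0 Nm hNm hNm1 hrelk
    have h4 : Nm.natDegree * Module.finrank K⟮x⟯ F ≤
        Nm.natDegree * IntermediateField.relfinrank k⟮xb⟯ Fk := by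
      calc Nm.natDegree * Module.finrank K⟮x⟯ F = Module.finrank K⟮j⟯ F := h1
        _ ≤ ψ := hdeg
        _ ≤ IntermediateField.relfinrank k⟮jb⟯ Fk := hpsi
        _ = IntermediateField.relfinrank k⟮jb⟯ k⟮xb⟯ * IntermediateField.relfinrank k⟮xb⟯ Fk :=
            h2.symm
        _ ≤ Nm.natDegree * IntermediateField.relfinrank k⟮xb⟯ Fk := Nat.mul_le_mul_right _ h3
    exact Nat.le_of_mul_le_mul_left h4 hn0
  · -- separability
    intro y hy
    let _ : Algebra k⟮jb⟯ k⟮xb⟯ := (IntermediateField.inclusion hle).toRingHom.toAlgebra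
    have : IsScalarTower k⟮jb⟯ k⟮xb⟯ L := IsScalarTower.of_algebraMap_eq fun _ => rfl
    exact IsSeparable.tower_top k⟮xb⟯ (hsep y hy)

end Generic

end Fermat.Agent.S18.H11
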