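/-
S18 / wave 4 (helper11): leaf B4d/B5d `degree_data_of_rel` of the bridge `exists_setup`
(sub-skeleton `H28/SetupAsm.lean`), conditional on the four base-function leaves (finiteness,
degree bound, residue degree bound, residue separability for the base function `j`), which are
passed as hypotheses.

* `transcendental_coeffMap_subtype` : an `A`-integral series with transcendental reduction is
  transcendental (coefficientwise reduction of a primitive polynomial relation).
* `degree_data_of_rel_of` : the leaf, for an arbitrary intermediate field of `K((q))`.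
-/
import Fermat.Agent.S18.H11.DegreeGeneric
import Fermat.Prelude.Def_ModularCurve_LaurentCoeff

set_option autoImplicit false

open IntermediateField Polynomial ModularCurve

noncomputable section

namespace Fermat.Agent.S18.H11

section CoeffMap

variable {R S : Type*} [CommRing R] [CommRing S]

theorem coeffMap_C (f : R →+* S) (r : R) :
    coeffMap f (HahnSeries.C r : LaurentSeries R) = HahnSeries.C (f r) := by
  rw [HahnSeries.C_apply, HahnSeries.C_apply, coeffMap_single]

theorem coeffMap_eval₂_C (f : R →+* S) (y : LaurentSeries R) (P : R[X]) :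
    coeffMap f (Polynomial.eval₂ (HahnSeries.C : R →+* LaurentSeries R) y P) =
      Polynomial.eval₂ (HahnSeries.C : S →+* LaurentSeries S) (coeffMap f y) (P.map f) := by
  rw [Polynomial.hom_eval₂, Polynomial.eval₂_map]
  congr 1
  exact RingHom.ext fun r => coeffMap_C f r

theorem coeffMap_injective (f : R →+* S) (hf : Function.Injective f) :
    Function.Injective (coeffMap f) := by
  intro y z h
  ext n
  apply hf
  have := congrArg (fun w => w.coeff n) h
  simpa using this

end CoeffMap

section Transcendental

variable {K : Type*} [Field K]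

theorem algebraMap_laurent_eq_C (L : Type*) [Field L] :
    (algebraMap L (LaurentSeries L)) = (HahnSeries.C : L →+* LaurentSeries L) := by
  ext c : 1
  rw [algebraMap_laurentSeries_eq_single, HahnSeries.C_apply]

/-- An `A`-integral series whose coefficientwise reduction is transcendental over the residue field
is transcendental over `K`. -/
theorem transcendental_coeffMap_subtype (A : ValuationSubring K) (X0 : LaurentSeries A)
    (htr : Transcendental (IsLocalRing.ResidueField A) (coeffMap (IsLocalRing.residue A) X0)) :
    Transcendental K (coeffMap A.subtype X0) := by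
  rintro ⟨p, hp0, hp⟩
  apply htr
  -- a coefficient of maximal valuation
  have hne : p.support.Nonempty := Polynomial.support_nonempty.mpr hp0
  obtain ⟨i, hi, hmax⟩ := Finset.exists_max_image p.support (fun n => A.valuation (p.coeff n)) hne
  have hci : p.coeff i ≠ 0 := Polynomial.mem_support_iff.mp hi
  set c : K := (p.coeff i)⁻¹ with hc
  have hmem : ∀ n, c * p.coeff n ∈ A := by
    intro n
    by_cases hn : p.coeff n = 0
    · rw [hn, mul_zero]; exact zero_mem _
    · have h1 := hmax n (Polynomial.mem_support_iff.mpr hn)
      rw [← A.valuation_le_one_iff, map_mul, hc, map_inv₀]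
      have hv : A.valuation (p.coeff i) ≠ 0 := (_root_.map_ne_zero _).mpr hci
      rw [inv_mul_le_iff₀ (zero_lt_iff.mpr hv), mul_one]
      exact h1
  -- the primitive integral polynomial
  have hlift : Polynomial.C c * p ∈ Polynomial.lifts A.subtype := by
    rw [Polynomial.lifts_iff_coeff_lifts]
    intro n
    rw [Polynomial.coeff_C_mul]
    exact ⟨⟨_, hmem n⟩, rfl⟩
  obtain ⟨qA, hqA⟩ := hlift
  have hqi : qA.coeff i = 1 := by
    apply Subtype.ext
    have h := congrArg (fun r => r.coeff i) hqA
    simp only [Polynomial.coe_mapRingHom, Polynomial.coeff_map, Polynomial.coeff_C_mul] at h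
    rw [show (A.subtype (qA.coeff i) : K) = ((qA.coeff i : A) : K) from rfl] at h
    rw [h, hc, inv_mul_cancel₀ hci]
    rfl
  have hq0 : qA.map (IsLocalRing.residue A) ≠ 0 := by
    intro h
    have h' := congrArg (fun r => r.coeff i) h
    simp only [Polynomial.coeff_map, hqi, map_one, Polynomial.coeff_zero] at h'
    exact one_ne_zero h'
  refine ⟨qA.map (IsLocalRing.residue A), hq0, ?_⟩
  -- the relation, over `A`
  have hrelK : Polynomial.eval₂ (HahnSeries.C : K →+* LaurentSeries K) (coeffMap A.subtype X0)
      (Polynomial.C c * p) = 0 := by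
    rw [Polynomial.eval₂_mul, ← algebraMap_laurent_eq_C K]
    have hp' : Polynomial.eval₂ (algebraMap K (LaurentSeries K)) (coeffMap A.subtype X0) p = 0 := by
      rw [← Polynomial.aeval_def]; exact hp
    rw [hp', mul_zero]
  have hrelA : Polynomial.eval₂ (HahnSeries.C : A →+* LaurentSeries A) X0 qA = 0 := by
    apply coeffMap_injective A.subtype Subtype.val_injective
    rw [coeffMap_eval₂_C, map_zero]
    have : qA.map A.subtype = Polynomial.C c * p := hqA
    rw [this]
    exact hrelK
  have h := congrArg (coeffMap (IsLocalRing.residue A)) hrelA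
  rw [coeffMap_eval₂_C, map_zero] at h
  rw [Polynomial.aeval_def, algebraMap_laurent_eq_C]
  exact h

end Transcendental

section Leaf

variable {K : Type*} [Field K] [CharZero K]

/-- **Leaf B4d/B5d** (`degree_data_of_rel` of the bridge sub-skeleton), for an arbitrary function
field `F ≤ K((q))`, an arbitrary residue function field `Fk`, and arbitrary base functions `j`,
`jb`; the four facts about the base function `j` are hypotheses (`hfin`, `hdeg`, `hpsi`, `hsep`).

`x` is the base change of the `A`-integral series `X0`, with `j * x = Nm(x)` on both fibres, `Nm`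
monic of degree `> 1` with `Nm(0) ≠ 0`.  Then `F / K(x)` is finite, of degree at most
`[Fk : k(x̄)]`, and `Fk / k(x̄)` is separable. -/
theorem degree_data_of_rel_of (A : ValuationSubring K) (F : IntermediateField K (LaurentSeries K))
    (Fk : IntermediateField (IsLocalRing.ResidueField A)
      (LaurentSeries (IsLocalRing.ResidueField A)))
    (X0 : LaurentSeries A) (x : F) (hx : (x : LaurentSeries K) = coeffMap A.subtype X0)
    (hxk : coeffMap (IsLocalRing.residue A) X0 ∈ Fk)
    (htr : Transcendental (IsLocalRing.ResidueField A) (coeffMap (IsLocalRing.residue A) X0))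
    (Nm : Polynomial ℤ) (hNm : Nm.Monic) (hNm1 : 1 < Nm.natDegree)
    {ℓ : ℕ} (hNm0 : ¬ (ℓ : ℤ) ∣ Nm.eval 0)
    (j : F) (jb : LaurentSeries (IsLocalRing.ResidueField A)) (ψ : ℕ)
    (hrel : j * x = Polynomial.eval₂ (Int.castRingHom F) x Nm)
    (hrelk : jb * coeffMap (IsLocalRing.residue A) X0 =
      Polynomial.eval₂ (Int.castRingHom (LaurentSeries (IsLocalRing.ResidueField A)))
        (coeffMap (IsLocalRing.residue A) X0) Nm)
    (hfin : FiniteDimensional K⟮j⟯ F)
    (hdeg : Module.finrank K⟮j⟯ F ≤ ψ)
    (hpsi : ψ ≤ IntermediateField.relfinrank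
      (IntermediateField.adjoin (IsLocalRing.ResidueField A) {jb}) Fk)
    (hsep : ∀ y ∈ Fk,
      IsSeparable (IntermediateField.adjoin (IsLocalRing.ResidueField A) {jb}) y) :
    FiniteDimensional K⟮x⟯ F ∧
    Module.finrank K⟮x⟯ F ≤ IntermediateField.relfinrank
      (IntermediateField.adjoin (IsLocalRing.ResidueField A)
        {coeffMap (IsLocalRing.residue A) X0}) Fk ∧
    ∀ y ∈ Fk, IsSeparable
      (IntermediateField.adjoin (IsLocalRing.ResidueField A)
        {coeffMap (IsLocalRing.residue A) X0}) y := by
  have hxtr : Transcendental K x := by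
    have h := transcendental_coeffMap_subtype A X0 htr
    rw [← hx] at h
    exact (transcendental_algebraMap_iff (R := K) (S := F) (A := LaurentSeries K)
      (algebraMap F (LaurentSeries K)).injective).mp h
  have hxb0 : coeffMap (IsLocalRing.residue A) X0 ≠ 0 := by
    intro h
    rw [h] at htr
    exact htr isAlgebraic_zero
  have hNm0' : ((Nm.eval 0 : ℤ) : K) ≠ 0 := by
    intro h
    apply hNm0
    have h0 : Nm.eval 0 = 0 := by exact_mod_cast h
    rw [h0]
    exact dvd_zero _
  exact degree_data_generic Fk x j _ jb ψ hxtr hxk hxb0 Nm hNm hNm1 hNm0' hrel hrelk hfin hdeg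
    hpsi hsep

end Leaf

end Fermat.Agent.S18.H11
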