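/-
S18 / Program J / leaf C1, node `tame_local` (D1(e)), backup copy by the DVR route (helper11).

`K` algebraically closed of characteristic zero, `x ∈ F` transcendental, `[F : K(x)] < ∞`,
`c ∈ K`.  For a local integral basis `θ` at `c` (in `Place` language):
`gramDet θ = (x - c)^n ε` with `ε ∈ K(x)` a unit at `c` and `n + #{P over c} ≤ [F : K(x)]`.

Route: the valuation ring `O_c` of the place `x = c` of `K(x)` (`H42.basePlace`) is a discrete
valuation ring with fraction field `K(x)`; `B_c = {f : regular over c}` is an `O_c`-subalgebra of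
`F`, free on `θ`, integrally closed; the landed `H31.tameLocal_card` gives
`ord_c (discr θ) + #S ≤ [F : K(x)]` for every finite set `S` of maximal ideals of `B_c`, and the
places over `c` have pairwise distinct centres on `B_c` (chart dictionary of `H42`).
-/
import Fermat.Agent.S18.H31.TameDiscrCor
import Fermat.Agent.S18.H42.NormOrder
import Fermat.Agent.S18.H74.Setup

set_option autoImplicit false
set_option linter.unusedSectionVars false

open AlgebraicCurve IsDedekindDomain Polynomial IntermediateField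
open scoped IntermediateField.algebraAdjoinAdjoin

namespace Fermat.Agent.S18.H11

open Fermat.Agent.S18.H42 Fermat.Agent.S24.H52 Fermat.Agent.S18.H74
open scoped ChartInst

noncomputable section

variable {K F : Type*} [Field K] [Field F] [Algebra K F]

/-- `0 ≤ ord_P f` iff `f` lies in the valuation ring of `P` (also for `f = 0`). -/
theorem ord_nonneg_iff_mem' (P : Place K F) (f : F) :
    0 ≤ P.ord f ↔ f ∈ P.toValuationSubring := by
  by_cases hf : f = 0
  · subst hf
    simp [P.toValuationSubring.zero_mem]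
  · exact (mem_iff_ord_nonneg P hf).symm

section Chart

variable (x : F) [hx : Fact (Transcendental K x)] [FiniteDimensional K⟮x⟯ F] [CharZero K]

/-- The order of an element of `K(x)` at a place over `c` is its order at `x = c` times the
ramification index. -/
theorem ord_coe_eq_mul (c : K) (P : Place K F) (hP : 0 < P.ord (x - algebraMap K F c))
    (r : K⟮x⟯) :
    P.ord (r : F) = (basePlace K x c).ord r * P.ord (x - algebraMap K F c) := by
  by_cases hr : r = 0
  · subst hr
    simp
  · obtain ⟨p, q, hpq⟩ := (IntermediateField.mem_adjoin_simple_iff K (r : F)).mp r.2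
    have hrF : (r : F) ≠ 0 := fun h0 => hr (Subtype.ext h0)
    have hq0 : aeval x q ≠ 0 := by
      intro h
      rw [h, div_zero] at hpq
      exact hrF hpq
    have hq : q ≠ 0 := by
      rintro rfl
      exact hq0 (map_zero _)
    have h : (r : F) * aeval x q = aeval x p := by
      rw [hpq, div_mul_cancel₀ _ hq0]
    have hp : p ≠ 0 := by
      rintro rfl
      rw [map_zero] at h
      exact mul_ne_zero hrF hq0 h
    obtain ⟨-, hqo⟩ := ord_aeval P hP hq
    obtain ⟨-, hpo⟩ := ord_aeval P hP hp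
    have hmul := P.ord_mul hrF hq0
    rw [h, hpo, hqo] at hmul
    rw [basePlace_ord_of_eq K x c hr p q hq h]
    linear_combination -hmul

/-- An element of `K(x)` is regular at a place over `c` iff it lies in the valuation ring of the
place `x = c` of `K(x)`. -/
theorem coe_mem_iff (c : K) (P : Place K F) (hP : 0 < P.ord (x - algebraMap K F c))
    (r : K⟮x⟯) :
    (r : F) ∈ P.toValuationSubring ↔ r ∈ (basePlace K x c).toValuationSubring := by
  rw [← ord_nonneg_iff_mem', ← ord_nonneg_iff_mem', ord_coe_eq_mul x c P hP r]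
  exact ⟨fun h => nonneg_of_mul_nonneg_left h hP, fun h => mul_nonneg h hP.le⟩

/-- A local integral basis at `c` is linearly independent over `K(x)`. -/
theorem linearIndependent_of_loc [IsAlgClosed K] (c : K) {ι : Type*} [Fintype ι] (θ : ι → F)
    (hloc : ∀ r : ι → K⟮x⟯,
      (∀ P : Place K F, 0 < P.ord (x - algebraMap K F c) → 0 ≤ P.ord (∑ i, (r i : F) * θ i)) →
      ∀ i, ∀ P : Place K F, 0 < P.ord (x - algebraMap K F c) → 0 ≤ P.ord (r i : F)) :
    LinearIndependent K⟮x⟯ θ := by
  rw [Fintype.linearIndependent_iff]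
  intro g hg i
  by_contra hgi
  obtain ⟨P, hP⟩ := exists_over x hx.out c
  set t : K⟮x⟯ := AdjoinSimple.gen K x - algebraMap K K⟮x⟯ c with ht_def
  have ht : (basePlace K x c).ord t = 1 := basePlace_ord_gen_sub K x c
  have ht0 : t ≠ 0 := gen_sub_ne_zero K x c
  set N : ℤ := -(basePlace K x c).ord (g i) - 1 with hN
  have hsum : ∑ j, (g j : F) * θ j = 0 := by
    rw [← hg]
    exact Finset.sum_congr rfl fun j _ => (Algebra.smul_def (g j) (θ j)).symm
  have h := hloc (fun j => t ^ N * g j) (by
    intro Q _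
    have h1 : ∑ j, ((t ^ N * g j : K⟮x⟯) : F) * θ j =
        ((t ^ N : K⟮x⟯) : F) * ∑ j, (g j : F) * θ j := by
      rw [Finset.mul_sum]
      refine Finset.sum_congr rfl fun j _ => ?_
      rw [MulMemClass.coe_mul, mul_assoc]
    rw [h1, hsum, mul_zero, Place.ord_zero]) i P hP
  rw [ord_coe_eq_mul x c P hP, (basePlace K x c).ord_mul (zpow_ne_zero N ht0) hgi,
    Place.ord_zpow, ht] at h
  have h2 : N * 1 + (basePlace K x c).ord (g i) = -1 := by
    rw [hN]; ring
  rw [h2] at h
  linarith

/-- `B_c`: the functions regular at all places over `c`, as an algebra over the valuation ring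
`O_c` of the place `x = c` of `K(x)`. -/
def regAlg (c : K) : Subalgebra ↥(basePlace K x c).toValuationSubring F where
  carrier := {f | ∀ P : Place K F, 0 < P.ord (x - algebraMap K F c) → f ∈ P.toValuationSubring}
  mul_mem' := fun hf hg P hP => P.toValuationSubring.mul_mem _ _ (hf P hP) (hg P hP)
  add_mem' := fun hf hg P hP => P.toValuationSubring.add_mem _ _ (hf P hP) (hg P hP)
  algebraMap_mem' := fun r P hP => (coe_mem_iff x c P hP (r : K⟮x⟯)).mpr r.2

theorem mem_regAlg (c : K) (f : F) :
    f ∈ regAlg x c ↔ ∀ P : Place K F, 0 < P.ord (x - algebraMap K F c) → 0 ≤ P.ord f := by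
  constructor
  · intro h P hP
    exact (ord_nonneg_iff_mem' P f).mpr (h P hP)
  · intro h P hP
    exact (ord_nonneg_iff_mem' P f).mp (h P hP)

/-- Elements of `F` integral over `O_c` are regular over `c`. -/
theorem mem_regAlg_of_isIntegral (c : K) (f : F)
    (hf : IsIntegral ↥(basePlace K x c).toValuationSubring f) : f ∈ regAlg x c := by
  intro P hP
  let φ : ↥(basePlace K x c).toValuationSubring →+* P.toValuationSubring :=
    (algebraMap ↥(basePlace K x c).toValuationSubring F).codRestrict P.toValuationSubring.toSubring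
      (fun r => (coe_mem_iff x c P hP (r : K⟮x⟯)).mpr r.2)
  have hint' : IsIntegral P.toValuationSubring f := by
    obtain ⟨p, hpm, hp⟩ := hf
    refine ⟨p.map φ, hpm.map φ, ?_⟩
    rw [← hp, Polynomial.eval₂_map]
    rfl
  obtain ⟨y, hy⟩ := IsIntegrallyClosed.isIntegral_iff.mp hint'
  have : f = (y : F) := hy.symm
  rw [this]
  exact y.2

/-- Two distinct places over `c` are separated by a function regular over `c`. -/
theorem exists_separating (c : K) (P P' : Place K F)
    (hP : 0 < P.ord (x - algebraMap K F c)) (hP' : 0 < P'.ord (x - algebraMap K F c))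
    (hne : P ≠ P') :
    ∃ g : F, g ∈ regAlg x c ∧ 0 < P.ord g ∧ P'.ord g = 0 := by
  have hxP := x_mem_of_over P hP
  have hxP' := x_mem_of_over P' hP'
  have hv : chartPrime P hxP ≠ chartPrime P' hxP' := by
    intro h
    apply hne
    rw [← chartPlace_chartPrime P hxP, ← chartPlace_chartPrime P' hxP', h]
  have hnle : ¬ (chartPrime P hxP).asIdeal ≤ (chartPrime P' hxP').asIdeal := by
    intro hle
    apply hv
    apply HeightOneSpectrum.ext
    exact ((chartPrime P hxP).isMaximal.eq_of_le (chartPrime P' hxP').isPrime.ne_top hle)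
  obtain ⟨g0, hg0, hg0'⟩ := SetLike.not_le_iff_exists.mp hnle
  have hg00 : g0 ≠ 0 := by
    rintro rfl
    exact hg0' (Ideal.zero_mem _)
  refine ⟨algebraMap (Bx K x) F g0, ?_, ?_, ?_⟩
  · intro Q hQ
    exact Bx_mem_of_mem Q (x_mem_of_over Q hQ) g0
  · exact ord_pos_of_mem_centre P (Bx_mem_of_mem P hxP) hg0 hg00
  · exact ord_eq_zero_of_not_mem_centre P' (Bx_mem_of_mem P' hxP') hg0'

/-- The centre on `B_c` of a place over `c`. -/
def regCentre (c : K) (P : Place K F) (hP : 0 < P.ord (x - algebraMap K F c)) :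
    Ideal ↥(regAlg x c) :=
  Ideal.comap
    (((regAlg x c).val : ↥(regAlg x c) →+* F).codRestrict P.toValuationSubring.toSubring
      (fun f => f.2 P hP))
    (IsLocalRing.maximalIdeal P.toValuationSubring)

instance regCentre_isPrime (c : K) (P : Place K F) (hP : 0 < P.ord (x - algebraMap K F c)) :
    (regCentre x c P hP).IsPrime :=
  Ideal.comap_isPrime _ _

theorem mem_regCentre_iff (c : K) (P : Place K F) (hP : 0 < P.ord (x - algebraMap K F c))
    (f : ↥(regAlg x c)) (hf : (f : F) ≠ 0) :
    f ∈ regCentre x c P hP ↔ 0 < P.ord (f : F) := by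
  have hmem : (f : F) ∈ P.toValuationSubring := f.2 P hP
  have key : f ∈ regCentre x c P hP ↔
      ¬ IsUnit (⟨(f : F), hmem⟩ : P.toValuationSubring) := by
    rw [regCentre, Ideal.mem_comap, IsLocalRing.mem_maximalIdeal, mem_nonunits_iff]
    rfl
  rw [key]
  constructor
  · intro hnu
    have h0 : 0 ≤ P.ord (f : F) := (ord_nonneg_iff_mem' P _).mpr hmem
    rcases h0.lt_or_eq with h | h
    · exact h
    · exfalso
      have hinv : (f : F)⁻¹ ∈ P.toValuationSubring := by
        rw [mem_iff_ord_nonneg P (inv_ne_zero hf), P.ord_inv, ← h, neg_zero]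
      apply hnu
      refine IsUnit.of_mul_eq_one (⟨(f : F)⁻¹, hinv⟩ : P.toValuationSubring) ?_
      apply Subtype.ext
      show (f : F) * (f : F)⁻¹ = 1
      exact mul_inv_cancel₀ hf
  · intro hpos hu
    have h1 := P.ord_coe_unit hu.unit
    rw [IsUnit.unit_spec] at h1
    change P.ord (f : F) = 0 at h1
    omega

theorem regCentre_ne_bot (c : K) (P : Place K F) (hP : 0 < P.ord (x - algebraMap K F c)) :
    regCentre x c P hP ≠ ⊥ := by
  have hmem : x - algebraMap K F c ∈ regAlg x c :=
    (mem_regAlg x c _).mpr fun Q hQ => hQ.le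
  have h0 : x - algebraMap K F c ≠ 0 := x_sub_ne_zero c
  intro hbot
  have h1 : (⟨x - algebraMap K F c, hmem⟩ : ↥(regAlg x c)) ∈ regCentre x c P hP :=
    (mem_regCentre_iff x c P hP ⟨_, hmem⟩ h0).mpr hP
  rw [hbot, Ideal.mem_bot] at h1
  exact h0 (congrArg Subtype.val h1)

theorem regCentre_injective (c : K) (P P' : Place K F)
    (hP : 0 < P.ord (x - algebraMap K F c)) (hP' : 0 < P'.ord (x - algebraMap K F c))
    (h : regCentre x c P hP = regCentre x c P' hP') : P = P' := by
  by_contra hne
  obtain ⟨g, hgB, hgP, hgP'⟩ := exists_separating x c P P' hP hP' hne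
  have hg0 : g ≠ 0 := by
    rintro rfl
    simp at hgP
  have h1 : (⟨g, hgB⟩ : ↥(regAlg x c)) ∈ regCentre x c P hP :=
    (mem_regCentre_iff x c P hP ⟨g, hgB⟩ hg0).mpr hgP
  rw [h] at h1
  have h2 := (mem_regCentre_iff x c P' hP' ⟨g, hgB⟩ hg0).mp h1
  change 0 < P'.ord g at h2
  omega

end Chart

/-- The Gram determinant is the discriminant of the family. -/
theorem gramDet_eq_discr (x : F) {μ : ℕ} (θ : Fin μ → F) :
    gramDet K F x θ = Algebra.discr K⟮x⟯ θ := rfl

/-- **`tame_local`** (node D1(e) of the C1 sub-skeleton, statement verbatim): for a local integral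
basis `θ` at `c`, `gramDet θ = (x - c)^n ε` with `ε` a unit at `c` and
`n + #{P over c} ≤ [F : K(x)]`. -/
theorem tame_local {x : F} [IsAlgClosed K] [CharZero K] (hx : Transcendental K x)
    [FiniteDimensional K⟮x⟯ F] (θ : Fin (Module.finrank K⟮x⟯ F) → F) (c : K)
    (hreg : ∀ i, ∀ P : Place K F, 0 < P.ord (x - algebraMap K F c) → 0 ≤ P.ord (θ i))
    (hloc : ∀ r : Fin (Module.finrank K⟮x⟯ F) → K⟮x⟯,
      (∀ P : Place K F, 0 < P.ord (x - algebraMap K F c) → 0 ≤ P.ord (∑ i, (r i : F) * θ i)) →
      ∀ i, ∀ P : Place K F, 0 < P.ord (x - algebraMap K F c) → 0 ≤ P.ord (r i : F))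
    (T : Finset (Place K F)) (hT : ∀ P, P ∈ T ↔ 0 < P.ord (x - algebraMap K F c)) :
    ∃ (n : ℕ) (ε : K⟮x⟯), n + T.card ≤ Module.finrank K⟮x⟯ F ∧
      ((gramDet K F x θ : K⟮x⟯) : F) = (x - algebraMap K F c) ^ n * (ε : F) ∧
      ∀ P : Place K F, 0 < P.ord (x - algebraMap K F c) → P.ord (ε : F) = 0 := by
  classical
  have : Fact (Transcendental K x) := ⟨hx⟩
  have hμpos : 0 < Module.finrank K⟮x⟯ F := Module.finrank_pos
  have : Nonempty (Fin (Module.finrank K⟮x⟯ F)) := ⟨⟨0, hμpos⟩⟩
  have hli := linearIndependent_of_loc x c θ hloc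
  let b : Module.Basis (Fin (Module.finrank K⟮x⟯ F)) K⟮x⟯ F :=
    basisOfLinearIndependentOfCardEqFinrank hli (by simp)
  have hbθ : ⇑b = θ := coe_basisOfLinearIndependentOfCardEqFinrank hli _
  obtain ⟨P0, hP0⟩ := exists_over x hx c
  have hbB : ∀ i, b i ∈ regAlg x c := fun i => by
    rw [hbθ]
    exact (mem_regAlg x c _).mpr (hreg i)
  have hBb : ∀ f ∈ regAlg x c,
      ∃ a : Fin (Module.finrank K⟮x⟯ F) → ↥(basePlace K x c).toValuationSubring,
        f = ∑ i, a i • b i := by
    intro f hf
    have hsum : ∑ i, ((b.repr f i : K⟮x⟯) : F) * θ i = f := by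
      conv_rhs => rw [← b.sum_repr f]
      refine Finset.sum_congr rfl fun i _ => ?_
      rw [hbθ, Algebra.smul_def]
      rfl
    have h1 := hloc (fun i => b.repr f i) (by
      rw [hsum]
      exact (mem_regAlg x c f).mp hf)
    have h2 : ∀ i, b.repr f i ∈ (basePlace K x c).toValuationSubring := fun i =>
      (coe_mem_iff x c P0 hP0 _).mp ((ord_nonneg_iff_mem' P0 _).mp (h1 i P0 hP0))
    refine ⟨fun i => ⟨b.repr f i, h2 i⟩, ?_⟩
    conv_lhs => rw [← hsum]
    refine Finset.sum_congr rfl fun i _ => ?_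
    rw [hbθ, Algebra.smul_def]
    rfl
  have hBic : ∀ f : F, IsIntegral ↥(basePlace K x c).toValuationSubring f → f ∈ regAlg x c :=
    mem_regAlg_of_isIntegral x c
  have : CharZero (IsLocalRing.ResidueField ↥(basePlace K x c).toValuationSubring) :=
    charZero_of_injective_ringHom
      ((IsLocalRing.residue ↥(basePlace K x c).toValuationSubring).comp
        (algebraMap K ↥(basePlace K x c).toValuationSubring)).injective
  have : CharZero K⟮x⟯ := charZero_of_injective_algebraMap (algebraMap K K⟮x⟯).injective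
  obtain ⟨bB, hb⟩ := Fermat.Agent.S18.H31.exists_basis_subalgebra (regAlg x c) b hbB hBb
  set d : ↥(basePlace K x c).toValuationSubring :=
    Algebra.discr ↥(basePlace K x c).toValuationSubring bB with hd_def
  have hd : algebraMap ↥(basePlace K x c).toValuationSubring K⟮x⟯ d = Algebra.discr K⟮x⟯ b := by
    rw [hd_def, Algebra.discr_def, Algebra.discr_def, RingHom.map_det]
    congr 1
    ext i j
    rw [RingHom.mapMatrix_apply, Matrix.map_apply, Algebra.traceMatrix_apply,
      Algebra.traceMatrix_apply, Algebra.traceForm_apply, Algebra.traceForm_apply,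
      Fermat.Agent.S18.H31.trace_subalgebra_eq (regAlg x c) b bB hb, MulMemClass.coe_mul, hb, hb]
  have hdisc_ne : Algebra.discr K⟮x⟯ b ≠ 0 := Algebra.discr_not_zero_of_basis K⟮x⟯ b
  have hd0 : (d : K⟮x⟯) ≠ 0 := by
    intro h
    apply hdisc_ne
    rw [← hd]
    exact h
  obtain ⟨π, hπ⟩ :=
    IsDiscreteValuationRing.exists_irreducible ↥(basePlace K x c).toValuationSubring
  obtain ⟨u, hu⟩ := (basePlace K x c).exists_unit_mul_zpow hd0 hπ
  have hord_nonneg : 0 ≤ (basePlace K x c).ord (d : K⟮x⟯) :=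
    (ord_nonneg_iff_mem' _ _).mpr d.2
  obtain ⟨n, hn⟩ := Int.eq_ofNat_of_zero_le hord_nonneg
  have hdvd : π ^ n ∣ d := by
    refine ⟨u, Subtype.ext ?_⟩
    rw [hu, hn, zpow_natCast, mul_comm]
    rfl
  -- the maximal ideals of `B_c` given by the places over `c`
  obtain ⟨-, -, hpid, -⟩ :=
    Fermat.Agent.S18.H31.exists_basis_pid_discr (regAlg x c) b hbB hBb hBic d hd
  have := hpid
  have hinj : Function.Injective
      (fun P : {P // P ∈ T} => regCentre x c P.1 ((hT P.1).mp P.2)) := by
    rintro ⟨P, hPT⟩ ⟨P', hPT'⟩ h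
    exact Subtype.ext (regCentre_injective x c P P' _ _ h)
  have hS : ∀ I ∈ T.attach.image (fun P : {P // P ∈ T} => regCentre x c P.1 ((hT P.1).mp P.2)),
      I.IsMaximal := by
    intro I hI
    obtain ⟨P, -, rfl⟩ := Finset.mem_image.mp hI
    exact IsPrime.to_maximal_ideal (regCentre_ne_bot x c P.1 _)
  have hle := Fermat.Agent.S18.H31.tameLocal_card (regAlg x c) b hbB hBb hBic π hπ d hd n hdvd
    _ hS
  rw [Finset.card_image_of_injective _ hinj, Finset.card_attach, Fintype.card_fin] at hle
  -- the unit part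
  set t : K⟮x⟯ := AdjoinSimple.gen K x - algebraMap K K⟮x⟯ c with ht_def
  have ht : (basePlace K x c).ord t = 1 := basePlace_ord_gen_sub K x c
  have ht0 : t ≠ 0 := gen_sub_ne_zero K x c
  have htF : (t : F) = x - algebraMap K F c := rfl
  refine ⟨n, (d : K⟮x⟯) / t ^ n, hle, ?_, ?_⟩
  · rw [gramDet_eq_discr, ← hbθ, ← hd, ← htF]
    show ((d : K⟮x⟯) : F) = ((t ^ n * ((d : K⟮x⟯) / t ^ n) : K⟮x⟯) : F)
    rw [mul_div_cancel₀ _ (pow_ne_zero n ht0)]
  · intro P hP
    rw [ord_coe_eq_mul x c P hP, div_eq_mul_inv,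
      (basePlace K x c).ord_mul hd0 (inv_ne_zero (pow_ne_zero n ht0)), Place.ord_inv,
      ← zpow_natCast, Place.ord_zpow, ht, hn]
    ring

end

end Fermat.Agent.S18.H11
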